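import Fermat.Agent.S55.E1.SpecAlg2
import Fermat.Agent.S55.T.CoresH572

/-!
# S55 engine E1, block **ALG7a** (helper954)

For a class module `(C, γ)` at `p`: the `p`-torsion of `H²(G, C)` is cyclic of order `≤ p`
(every nonzero element generates it), and it is nonzero as soon as `p ∣ |G|`.

Proof: restriction to a Sylow `p`-subgroup `P` is injective on `p`-torsion (`resIndex`), and
`H²(P, C)` is cyclic of order `|P|`.
-/

set_option autoImplicit false
set_option linter.unusedSectionVars false
set_option linter.style.haveILetI false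

namespace Fermat.Agent.S55.E1.H954

open CategoryTheory

section Cyclic

variable {X : Type} [AddCommGroup X]

/-- An element killed by two coprime integers vanishes. -/
lemma eq_zero_of_coprime_nsmul {a b : ℕ} (hab : Nat.Coprime a b) {x : X} (ha : a • x = 0)
    (hb : b • x = 0) : x = 0 := by
  have h1 : addOrderOf x ∣ a := addOrderOf_dvd_of_nsmul_eq_zero ha
  have h2 : addOrderOf x ∣ b := addOrderOf_dvd_of_nsmul_eq_zero hb
  have h3 : addOrderOf x = 1 := Nat.eq_one_of_dvd_coprimes hab h1 h2
  exact AddMonoid.addOrderOf_eq_one_iff.1 h3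

/-- In a finite cyclic group the `p`-torsion is generated by each of its nonzero elements. -/
lemma exists_nsmul_eq_of_cyclic [Finite X] (g₀ : X) (hg₀ : ∀ x : X, ∃ n : ℕ, x = n • g₀)
    {p : ℕ} (hp : p.Prime) {u u' : X} (hu : p • u = 0) (hu' : p • u' = 0) (hu0 : u ≠ 0) :
    ∃ n : ℕ, u' = n • u := by
  classical
  haveI : Fact p.Prime := ⟨hp⟩
  haveI : Fintype X := Fintype.ofFinite X
  haveI : IsAddCyclic X := ⟨⟨g₀, fun x => by
    obtain ⟨n, hn⟩ := hg₀ x
    exact ⟨(n : ℤ), by simp [hn]⟩⟩⟩
  have hord : addOrderOf u = p := addOrderOf_eq_prime hu hu0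
  have hle : (Finset.univ.filter (fun a : X => p • a = 0)).card ≤ p :=
    IsAddCyclic.card_nsmul_eq_zero_le hp.pos
  have hsub : (Finset.range p).image (fun i => i • u) ⊆
      Finset.univ.filter (fun a : X => p • a = 0) := by
    intro y hy
    obtain ⟨i, -, rfl⟩ := Finset.mem_image.1 hy
    simp only [Finset.mem_filter, Finset.mem_univ, true_and]
    rw [smul_comm, hu, smul_zero]
  have hcard : ((Finset.range p).image (fun i => i • u)).card = p := by
    rw [Finset.card_image_of_injOn, Finset.card_range]
    intro i hi j hj hij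
    have hi' : i < addOrderOf u := by rw [hord]; exact Finset.mem_range.1 hi
    have hj' : j < addOrderOf u := by rw [hord]; exact Finset.mem_range.1 hj
    exact nsmul_injOn_Iio_addOrderOf hi' hj' hij
  have heq := Finset.eq_of_subset_of_card_le hsub (by rw [hcard]; exact hle)
  have hmem : u' ∈ Finset.univ.filter (fun a : X => p • a = 0) := by
    simp [hu']
  rw [← heq] at hmem
  obtain ⟨i, -, hi⟩ := Finset.mem_image.1 hmem
  exact ⟨i, hi.symm⟩

end Cyclic

/-- **ALG7a** (`ALG7aSpec`). -/
theorem alg7a : ALG7aSpec := by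
  intro p hp G _ _ C γ hC
  haveI : Fact p.Prime := ⟨hp⟩
  obtain ⟨P⟩ : Nonempty (Sylow p G) := inferInstance
  obtain ⟨-, hcard, hgen⟩ := hC (P : Subgroup G) P.isPGroup'
  haveI hXfin : Finite (groupCohomology (T.resSub C (P : Subgroup G)) 2) :=
    Nat.finite_of_card_ne_zero (by rw [hcard]; exact Nat.card_pos.ne')
  have hcop : Nat.Coprime p (P : Subgroup G).index :=
    (Nat.Prime.coprime_iff_not_dvd hp).2 P.not_dvd_index
  -- restriction to `P` is injective on `p`-torsion
  have hinj : ∀ w : groupCohomology C 2, p • w = 0 →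
      (T.resMap C (P : Subgroup G) 2).hom w = 0 → w = 0 := by
    intro w hw hres
    have h := T.H572.resIndex ℤ G C (P : Subgroup G) 2 (by norm_num) w hres
    exact eq_zero_of_coprime_nsmul hcop hw h
  constructor
  · intro w w' hw hw' hw0
    have h1 : p • (T.resMap C (P : Subgroup G) 2).hom w = 0 := by
      rw [← map_nsmul, hw, map_zero]
    have h1' : p • (T.resMap C (P : Subgroup G) 2).hom w' = 0 := by
      rw [← map_nsmul, hw', map_zero]
    have h0 : (T.resMap C (P : Subgroup G) 2).hom w ≠ 0 := fun h => hw0 (hinj w hw h)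
    obtain ⟨n, hn⟩ := exists_nsmul_eq_of_cyclic _ hgen hp h1 h1' h0
    refine ⟨n, ?_⟩
    have h2 : w' - n • w = 0 := by
      apply hinj
      · rw [smul_sub, hw', smul_comm, hw, smul_zero, sub_zero]
      · rw [map_sub, map_nsmul, hn, sub_self]
    exact sub_eq_zero.1 h2
  · intro hpG
    -- `|P| = p ^ k` with `k ≥ 1`
    have hk : Nat.card (P : Subgroup G) = p ^ ((Nat.card G).factorization p) :=
      Sylow.card_eq_multiplicity P
    have hkpos : 0 < (Nat.card G).factorization p :=
      (hp.factorization_pos_of_dvd Nat.card_pos.ne' hpG)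
    obtain ⟨k, hk'⟩ : ∃ k, (Nat.card G).factorization p = k + 1 :=
      ⟨(Nat.card G).factorization p - 1, by omega⟩
    rw [hk'] at hk
    set g₀ := (T.resMap C (P : Subgroup G) 2).hom γ with hg₀
    -- the order of `g₀`
    have hord : addOrderOf g₀ = p ^ (k + 1) := by
      rw [← hk, ← hcard]
      apply addOrderOf_eq_card_of_forall_mem_zmultiples
      intro x
      obtain ⟨n, hn⟩ := hgen x
      rw [hn]
      exact AddSubgroup.nsmul_mem _ (AddSubgroup.mem_zmultiples g₀) n
    have hu0 : p ^ k • g₀ ≠ 0 := by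
      intro h
      have := addOrderOf_dvd_of_nsmul_eq_zero h
      rw [hord] at this
      exact absurd (Nat.le_of_dvd (pow_pos hp.pos k) this)
        (not_le.2 (Nat.pow_lt_pow_right hp.one_lt (Nat.lt_succ_self k)))
    have hpu : p • (p ^ k • g₀) = 0 := by
      rw [← mul_smul, ← pow_succ', ← hord, addOrderOf_nsmul_eq_zero]
    refine ⟨((P : Subgroup G).index * p ^ k) • γ, ?_, ?_⟩
    · intro h
      have h2 : (P : Subgroup G).index • (p ^ k • g₀) = 0 := by
        rw [hg₀, ← map_nsmul, ← map_nsmul, ← mul_smul, h, map_zero]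
      exact hu0 (eq_zero_of_coprime_nsmul hcop hpu h2)
    · have hG : p * ((P : Subgroup G).index * p ^ k) = Nat.card G := by
        rw [← (P : Subgroup G).card_mul_index, hk, pow_succ]
        ring
      rw [← mul_smul, hG]
      exact T.H572.cardTorsion ℤ G C 2 (by norm_num) γ

end Fermat.Agent.S55.E1.H954
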