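import Mathlib

/-!
# S55 engine E1, block ALG4 (norm-kill): the pure extension lemma (helper954)

`ι : R → P` an injective homomorphism of abelian groups with `p • P ⊆ ι R`.  Then `P / ι R` is an
`𝔽_p`-vector space; lifting a basis gives a family `x : I → P` such that

* `P` is generated by `ι R` and the `x i` (`LiftData.ext`);
* a homomorphism `f : R → C` extends to `P` with prescribed values `k (x i) = c i` as soon as
  `f r = p • c i` whenever `ι r = p • x i` (`LiftData.exists_extension`).
-/

set_option autoImplicit false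
set_option linter.style.haveILetI false

namespace Fermat.Agent.S55.E1.H954

open Function

variable {R P : Type} [AddCommGroup R] [AddCommGroup P]

/-- A family `x : I → P` of lifts of an `𝔽_p`-basis of `P / ι R`, expressed by its two universal
properties. -/
structure LiftData (p : ℕ) (ι : R →+ P) where
  /-- index type -/
  I : Type
  /-- the lifts -/
  x : I → P
  /-- `P = ι R + ∑ ℤ x_i` -/
  ext : ∀ {C : Type} [AddCommGroup C] (k₁ k₂ : P →+ C),
    (∀ r, k₁ (ι r) = k₂ (ι r)) → (∀ i, k₁ (x i) = k₂ (x i)) → k₁ = k₂
  /-- extension with prescribed values -/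
  exists_extension : ∀ {C : Type} [AddCommGroup C] (f : R →+ C) (c : I → C),
    (∀ i r, ι r = p • x i → f r = p • c i) →
      ∃ k : P →+ C, (∀ r, k (ι r) = f r) ∧ ∀ i, k (x i) = c i

section Construction

variable (p : ℕ) [hp' : Fact p.Prime] (ι : R →+ P)

/-- The combination map `m ↦ ∑ m_i • x_i`. -/
noncomputable def comb {I M : Type} [AddCommGroup M] (x : I → M) : (I →₀ ℤ) →+ M :=
  Finsupp.liftAddHom (fun i => zmultiplesHom M (x i))

lemma comb_single {I M : Type} [AddCommGroup M] (x : I → M) (i : I) (n : ℤ) :
    comb x (Finsupp.single i n) = n • x i := by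
  simp [comb]

lemma map_comb {I M M' : Type} [AddCommGroup M] [AddCommGroup M'] (φ : M →+ M') (x : I → M)
    (m : I →₀ ℤ) : φ (comb x m) = comb (fun i => φ (x i)) m := by
  have : φ.comp (comb x) = comb (fun i => φ (x i)) := by
    apply Finsupp.addHom_ext
    intro i n
    simp [comb_single, map_zsmul]
  exact DFunLike.congr_fun this m

lemma comb_smul {I M : Type} [AddCommGroup M] (x : I → M) (p : ℕ) (m : I →₀ ℤ) :
    comb x ((p : ℤ) • m) = comb (fun i => p • x i) m := by
  have : (comb x).comp ((p : ℤ) • AddMonoidHom.id (I →₀ ℤ)) =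
      comb (fun i => p • x i) := by
    apply Finsupp.addHom_ext
    intro i n
    simp only [AddMonoidHom.coe_comp, comp_apply, AddMonoidHom.smul_apply,
      AddMonoidHom.id_apply, comb_single, Finsupp.smul_single, smul_eq_mul]
    rw [mul_comm, mul_smul, natCast_zsmul]
  have h2 := DFunLike.congr_fun this m
  simpa using h2

/-- Lifting an `𝔽_p`-basis of `P / ι R`, for a given model `π : P → Q` of the quotient. -/
theorem nonempty_liftData_aux {Q I : Type} [AddCommGroup Q] [Module (ZMod p) Q] (π : P →+ Q)
    (hπ : Surjective π) (hπker : ∀ y : P, π y = 0 ↔ y ∈ ι.range)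
    (b : Module.Basis I (ZMod p) Q)
    (hι : Injective ι) (hp : ∀ x : P, ∃ r, ι r = p • x) :
    Nonempty (LiftData p ι) := by
  classical
  have hx : ∀ i : I, ∃ x : P, π x = b i := fun i => hπ (b i)
  choose x hx using hx
  have hr : ∀ i : I, ∃ r : R, ι r = p • x i := fun i => hp (x i)
  choose r₀ hr₀ using hr
  -- key identity
  have key : ∀ m : I →₀ ℤ,
      π (comb x m) = Finsupp.linearCombination (ZMod p) b
        (Finsupp.mapRange.addMonoidHom (Int.castAddHom (ZMod p)) m) := by
    intro m
    have : π.comp (comb x) =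
        ((Finsupp.linearCombination (ZMod p) b).toAddMonoidHom).comp
          (Finsupp.mapRange.addMonoidHom (Int.castAddHom (ZMod p))) := by
      apply Finsupp.addHom_ext
      intro i n
      simp [comb_single, hx, Int.cast_smul_eq_zsmul]
    exact DFunLike.congr_fun this m
  -- surjectivity
  have surj : ∀ y : P, ∃ (r : R) (m : I →₀ ℤ), ι r + comb x m = y := by
    intro y
    let c := b.repr (π y)
    let m : I →₀ ℤ := c.mapRange (fun a => (ZMod.cast a : ℤ)) (by simp)
    have hm : π (comb x m) = π y := by
      rw [key]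
      have : Finsupp.mapRange.addMonoidHom (Int.castAddHom (ZMod p)) m = c := by
        ext i
        simp [m]
      rw [this]
      exact b.linearCombination_repr _
    have : y - comb x m ∈ ι.range := by
      rw [← hπker, map_sub, hm, sub_self]
    obtain ⟨r, hr⟩ := this
    exact ⟨r, m, by rw [hr]; abel⟩
  -- divisibility
  have dvd : ∀ (r : R) (m : I →₀ ℤ), ι r + comb x m = 0 →
      ∃ m' : I →₀ ℤ, m = (p : ℤ) • m' := by
    intro r m h
    have h0 : π (comb x m) = 0 := by
      rw [hπker]
      refine ⟨-r, ?_⟩
      rw [map_neg]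
      exact neg_eq_of_add_eq_zero_right h
    rw [key] at h0
    have h1 := linearIndependent_iff.1 b.linearIndependent _ h0
    have h2 : ∀ i, (p : ℤ) ∣ m i := by
      intro i
      have := DFunLike.congr_fun h1 i
      simp only [Finsupp.mapRange.addMonoidHom_apply, Finsupp.mapRange_apply,
        Int.coe_castAddHom, Finsupp.coe_zero, Pi.zero_apply] at this
      exact (ZMod.intCast_zmod_eq_zero_iff_dvd (m i) p).1 this
    refine ⟨m.mapRange (fun a => a / (p : ℤ)) (Int.zero_ediv _), ?_⟩
    ext i
    simp only [Finsupp.coe_smul, Pi.smul_apply, Finsupp.mapRange_apply, smul_eq_mul]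
    exact (Int.mul_ediv_cancel' (h2 i)).symm
  refine ⟨{ I := I, x := x, ext := ?_,
            exists_extension := ?_ }⟩
  · intro C _ k₁ k₂ h1 h2
    ext y
    obtain ⟨r, m, rfl⟩ := surj y
    rw [map_add, map_add, h1, map_comb, map_comb,
      show (fun i => k₁ (x i)) = fun i => k₂ (x i) from funext h2]
  · intro C _ f c hc
    have hΦ : Surjective (ι.coprod (comb x)) := by
      intro y
      obtain ⟨r, m, h⟩ := surj y
      exact ⟨(r, m), by simpa using h⟩
    have hker : (ι.coprod (comb x)).ker ≤ (f.coprod (comb c)).ker := by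
      rintro ⟨r, m⟩ h
      rw [AddMonoidHom.mem_ker, AddMonoidHom.coprod_apply] at h ⊢
      simp only at h ⊢
      obtain ⟨m', rfl⟩ := dvd r m h
      rw [comb_smul] at h ⊢
      have e1 : comb (fun i => p • x i) m' = ι (comb r₀ m') := by
        rw [map_comb, show (fun i => ι (r₀ i)) = fun i => p • x i from funext hr₀]
      have e2 : comb (fun i => p • c i) m' = f (comb r₀ m') := by
        rw [map_comb, show (fun i => f (r₀ i)) = fun i => p • c i from
          funext fun i => hc i (r₀ i) (hr₀ i)]
      rw [e1, ← map_add] at h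
      have h3 : r + comb r₀ m' = 0 := hι (by rw [h, map_zero])
      rw [e2, ← map_add, h3, map_zero]
    refine ⟨(ι.coprod (comb x)).liftOfSurjective hΦ ⟨f.coprod (comb c), hker⟩, ?_, ?_⟩
    · intro r
      have := AddMonoidHom.liftOfRightInverse_comp_apply (ι.coprod (comb x)) _
        (Function.rightInverse_surjInv hΦ) ⟨f.coprod (comb c), hker⟩ (r, 0)
      simpa using this
    · intro i
      have := AddMonoidHom.liftOfRightInverse_comp_apply (ι.coprod (comb x)) _
        (Function.rightInverse_surjInv hΦ) ⟨f.coprod (comb c), hker⟩ (0, Finsupp.single i 1)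
      simpa [comb_single] using this

/-- Lifting an `𝔽_p`-basis of `P / ι R`. -/
theorem nonempty_liftData (hι : Injective ι) (hp : ∀ x : P, ∃ r, ι r = p • x) :
    Nonempty (LiftData p ι) := by
  have hQ : ∀ q : P ⧸ ι.range, p • q = 0 := by
    intro q
    induction q using QuotientAddGroup.induction_on with
    | H y =>
      obtain ⟨r, hr⟩ := hp y
      have h : ((p • y : P) : P ⧸ ι.range) = 0 := (QuotientAddGroup.eq_zero_iff _).2 ⟨r, hr⟩
      exact h
  letI inst : Module (ZMod p) (P ⧸ ι.range) := AddCommGroup.zmodModule hQ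
  exact nonempty_liftData_aux p ι (QuotientAddGroup.mk' ι.range)
    (QuotientAddGroup.mk'_surjective _) (fun y => QuotientAddGroup.eq_zero_iff y)
    (Module.Basis.ofVectorSpace (ZMod p) (P ⧸ ι.range)) hι hp

end Construction

end Fermat.Agent.S55.E1.H954
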