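import Fermat.Agent.S55.E1.SpecAlg
import Fermat.Agent.S55.E1.H954.NormKillCore

/-!
# S55 engine E1, block **ALG4** (norm-kill) (helper954)

* `normKill` : abstract form.  `G` finite, `H ≤ G`, `ι : R ⟶ P` injective in `Rep ℤ G` with
  `p • P ⊆ ι R` and `(h - 1) P ⊆ ι R` for `h ∈ H`, `N_H(C) ⊆ p • C^H`.  Then for every additive
  `ψ : R → C` the norm `N_G ψ = ∑_σ σ ψ σ⁻¹` extends to a `G`-map `P ⟶ C`.
* `alg4 : ALG4Spec`.
-/

set_option autoImplicit false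
set_option linter.unusedSectionVars false
set_option linter.style.haveILetI false

namespace Fermat.Agent.S55.E1.H954

open Function CategoryTheory

variable {G : Type} [Group G]

lemma ρ_mul_apply (A : Rep.{0} ℤ G) (a b : G) (x : A.V) : A.ρ (a * b) x = A.ρ a (A.ρ b x) := by
  rw [map_mul]; rfl

lemma ρ_inv_self_apply (A : Rep.{0} ℤ G) (a : G) (x : A.V) : A.ρ a⁻¹ (A.ρ a x) = x := by
  rw [← ρ_mul_apply, inv_mul_cancel, map_one]; rfl

lemma ρ_self_inv_apply (A : Rep.{0} ℤ G) (a : G) (x : A.V) : A.ρ a (A.ρ a⁻¹ x) = x := by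
  rw [← ρ_mul_apply, mul_inv_cancel, map_one]; rfl

/-- The action of `g` as an additive map. -/
def ρa (A : Rep.{0} ℤ G) (g : G) : A.V →+ A.V := AddMonoidHom.mk' (A.ρ g) (map_add _)

@[simp] lemma ρa_apply (A : Rep.{0} ℤ G) (g : G) (x : A.V) : ρa A g x = A.ρ g x := rfl

/-- A morphism as an additive map. -/
def homa {A B : Rep.{0} ℤ G} (f : A ⟶ B) : A.V →+ B.V := AddMonoidHom.mk' f.hom (map_add _)

@[simp] lemma homa_apply {A B : Rep.{0} ℤ G} (f : A ⟶ B) (x : A.V) : homa f x = f.hom x := rfl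

/-- An additive map as a `ℤ`-linear map (for the module structures carried by the `Rep`s). -/
def toLin {A B : Rep.{0} ℤ G} (k : A.V →+ B.V) :
    @LinearMap ℤ ℤ _ _ (RingHom.id ℤ) A.V B.V _ _ A.hV2 B.hV2 :=
  @LinearMap.mk ℤ ℤ _ _ (RingHom.id ℤ) A.V B.V _ _ A.hV2 B.hV2 ⟨k, map_add k⟩ (fun n x => by
    simp only [RingHom.id_apply]
    have h1 := int_smul_eq_zsmul A.hV2 n x
    have h2 := int_smul_eq_zsmul B.hV2 n (k x)
    exact (congrArg k h1).trans ((map_zsmul k n x).trans h2.symm))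

lemma toLin_apply {A B : Rep.{0} ℤ G} (k : A.V →+ B.V) (x : A.V) :
    (toLin k) x = k x := rfl

/-- A morphism of `Rep ℤ G` from a `G`-equivariant additive map. -/
def mkHom {A B : Rep.{0} ℤ G} (k : A.V →+ B.V) (hk : ∀ g y, k (A.ρ g y) = B.ρ g (k y)) :
    A ⟶ B :=
  ConcreteCategory.ofHom (C := Rep.{0} ℤ G) (X := A) (Y := B)
    (@Representation.IntertwiningMap.mk ℤ G A.V B.V _ _ _ _ A.hV2 B.hV2 A.ρ B.ρ (toLin k)
      (fun g => @LinearMap.ext ℤ ℤ A.V B.V _ _ _ _ A.hV2 B.hV2 _ _ _ (fun y => hk g y)))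

lemma mkHom_hom_apply {A B : Rep.{0} ℤ G} (k : A.V →+ B.V)
    (hk : ∀ g y, k (A.ρ g y) = B.ρ g (k y)) (y : A.V) : (mkHom k hk).hom y = k y := rfl

section HNorm

variable (H : Subgroup G) [Fintype H] {R C : Rep.{0} ℤ G}

/-- The `H`-norm `N_H ψ = ∑_{t ∈ H} t ψ t⁻¹` of an additive map. -/
noncomputable def normH (ψ : R.V →+ C.V) : R.V →+ C.V :=
  ∑ t : H, ((ρa C (t : G)).comp ψ).comp (ρa R ((t : G)⁻¹))

lemma normH_apply (ψ : R.V →+ C.V) (r : R.V) :
    normH H ψ r = ∑ t : H, C.ρ (t : G) (ψ (R.ρ ((t : G)⁻¹) r)) := by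
  simp [normH]

lemma normH_equivariant (ψ : R.V →+ C.V) (h : G) (hh : h ∈ H) (r : R.V) :
    normH H ψ (R.ρ h r) = C.ρ h (normH H ψ r) := by
  rw [normH_apply, normH_apply, map_sum]
  refine Fintype.sum_equiv (Equiv.mulLeft (⟨h, hh⟩ : H)⁻¹) _ _ (fun t => ?_)
  simp only [Equiv.coe_mulLeft, Subgroup.coe_mul, Subgroup.coe_inv, mul_inv_rev, inv_inv]
  rw [← ρ_mul_apply C, ← ρ_mul_apply R, mul_inv_cancel_left]

end HNorm

section Ext

variable (H : Subgroup G) [Fintype H] (p : ℕ) {R P C : Rep.{0} ℤ G} (ι : R ⟶ P)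

/-- The values an `H`-equivariant extension of `N_H ψ` may take at `x`. -/
lemma exists_good_value (hι : Injective ι.hom) (hp : ∀ x : P.V, ∃ r : R.V, ι.hom r = p • x)
    (hH : ∀ h ∈ H, ∀ x : P.V, ∃ r : R.V, ι.hom r = P.ρ h x - x) (hC : NormInP p H C)
    (ψ : R.V →+ C.V) (x : P.V) :
    ∃ b : C.V, (∀ r, ι.hom r = p • x → normH H ψ r = p • b) ∧
      (∀ h ∈ H, ∀ r, ι.hom r = P.ρ h x - x → normH H ψ r = C.ρ h b - b) := by
  have hw : ∀ t : H, ∃ w : R.V, ι.hom w = P.ρ ((t : G)⁻¹) x - x :=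
    fun t => hH _ (H.inv_mem t.2) x
  choose w hw using hw
  obtain ⟨r₀, hr₀⟩ := hp x
  obtain ⟨c₀, hc₀, hc₀'⟩ := hC (ψ r₀)
  refine ⟨(∑ t : H, C.ρ (t : G) (ψ (w t))) + c₀, ?_, ?_⟩
  · intro r hr
    have hrr : r = r₀ := hι (hr.trans hr₀.symm)
    subst hrr
    rw [normH_apply]
    have key : ∀ t : H, R.ρ ((t : G)⁻¹) r = r + p • w t := by
      intro t
      apply hι
      have e1 : ι.hom (R.ρ ((t : G)⁻¹) r) = p • P.ρ ((t : G)⁻¹) x := by
        rw [Rep.hom_comm_apply, hr, map_nsmul]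
      have e2 : ι.hom (r + p • w t) = p • x + p • (P.ρ ((t : G)⁻¹) x - x) := by
        rw [map_add, map_nsmul, hw, hr]
      rw [e1, e2, smul_sub]
      abel
    simp only [key, map_add, map_nsmul, Finset.sum_add_distrib]
    rw [hc₀', ← Finset.smul_sum, smul_add, add_comm]
  · intro h hh r hr
    rw [normH_apply]
    have key : ∀ t : H, R.ρ ((t : G)⁻¹) r = w ((⟨h, hh⟩ : H)⁻¹ * t) - w t := by
      intro t
      apply hι
      have e1 : ι.hom (R.ρ ((t : G)⁻¹) r) = P.ρ ((t : G)⁻¹ * h) x - P.ρ ((t : G)⁻¹) x := by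
        rw [Rep.hom_comm_apply, hr, map_sub, ← ρ_mul_apply]
      have e2 : ι.hom (w ((⟨h, hh⟩ : H)⁻¹ * t) - w t) =
          (P.ρ ((t : G)⁻¹ * h) x - x) - (P.ρ ((t : G)⁻¹) x - x) := by
        rw [map_sub, hw, hw]
        simp only [Subgroup.coe_mul, Subgroup.coe_inv, mul_inv_rev, inv_inv]
      rw [e1, e2]
      abel
    simp only [key, map_sub, Finset.sum_sub_distrib]
    have e1 : ∑ t : H, C.ρ (t : G) (ψ (w ((⟨h, hh⟩ : H)⁻¹ * t))) =
        C.ρ h (∑ t : H, C.ρ (t : G) (ψ (w t))) := by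
      rw [map_sum]
      refine Fintype.sum_equiv (Equiv.mulLeft (⟨h, hh⟩ : H)⁻¹) _ _ (fun t => ?_)
      simp only [Equiv.coe_mulLeft, Subgroup.coe_mul, Subgroup.coe_inv]
      rw [← ρ_mul_apply C, mul_inv_cancel_left]
    rw [e1, map_add, hc₀ h hh]
    abel

/-- An `H`-equivariant extension of `N_H ψ` to `P`. -/
theorem exists_equivariant_extension [Fact p.Prime] (hι : Injective ι.hom)
    (hp : ∀ x : P.V, ∃ r : R.V, ι.hom r = p • x)
    (hH : ∀ h ∈ H, ∀ x : P.V, ∃ r : R.V, ι.hom r = P.ρ h x - x) (hC : NormInP p H C)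
    (ψ : R.V →+ C.V) :
    ∃ k : P.V →+ C.V, (∀ r, k (ι.hom r) = normH H ψ r) ∧
      ∀ h ∈ H, ∀ y, k (P.ρ h y) = C.ρ h (k y) := by
  obtain ⟨D⟩ := nonempty_liftData p (homa ι) hι hp
  have hb := fun i => exists_good_value H p ι hι hp hH hC ψ (D.x i)
  choose b hb1 hb2 using hb
  obtain ⟨k, hk1, hk2⟩ := D.exists_extension (normH H ψ) b (fun i r hr => hb1 i r hr)
  replace hk1 : ∀ r, k (ι.hom r) = normH H ψ r := hk1
  refine ⟨k, hk1, fun h hh y => ?_⟩
  have := D.ext (k.comp (ρa P h)) ((ρa C h).comp k) ?_ ?_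
  · exact DFunLike.congr_fun this y
  · intro r
    change k (P.ρ h (ι.hom r)) = C.ρ h (k (ι.hom r))
    rw [← Rep.hom_comm_apply, hk1, hk1, normH_equivariant H ψ h hh]
  · intro i
    change k (P.ρ h (D.x i)) = C.ρ h (k (D.x i))
    obtain ⟨w, hw⟩ := hH h hh (D.x i)
    have e : P.ρ h (D.x i) = D.x i + ι.hom w := by rw [hw]; abel
    rw [e, map_add, hk1, hk2, hb2 i h hh w hw]
    abel

end Ext

section Coset

variable (H : Subgroup G) {P C : Rep.{0} ℤ G}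

/-- The conjugate `σ k σ⁻¹` of an additive map. -/
def conjHom (k : P.V →+ C.V) (σ : G) : P.V →+ C.V := ((ρa C σ).comp k).comp (ρa P σ⁻¹)

lemma conjHom_apply (k : P.V →+ C.V) (σ : G) (y : P.V) :
    conjHom k σ y = C.ρ σ (k (P.ρ σ⁻¹ y)) := rfl

lemma conjHom_mul_of_mem (k : P.V →+ C.V) (hk : ∀ h ∈ H, ∀ y, k (P.ρ h y) = C.ρ h (k y))
    (σ h : G) (hh : h ∈ H) : conjHom k (σ * h) = conjHom k σ := by
  ext y
  rw [conjHom_apply, conjHom_apply, mul_inv_rev, ρ_mul_apply P, hk _ (H.inv_mem hh),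
    ρ_mul_apply C, ρ_self_inv_apply]

lemma conjHom_out (k : P.V →+ C.V) (hk : ∀ h ∈ H, ∀ y, k (P.ρ h y) = C.ρ h (k y)) (σ : G) :
    conjHom k ((σ : G ⧸ H).out) = conjHom k σ := by
  obtain ⟨h, hh⟩ := QuotientGroup.mk_out_eq_mul H σ
  rw [hh, conjHom_mul_of_mem H k hk σ h h.2]

lemma conjHom_mul_apply (k : P.V →+ C.V) (τ σ : G) (y : P.V) :
    conjHom k (τ * σ) (P.ρ τ y) = C.ρ τ (conjHom k σ y) := by
  rw [conjHom_apply, conjHom_apply, mul_inv_rev, ρ_mul_apply P, ρ_inv_self_apply, ρ_mul_apply C]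

/-- The coset norm `N_{G/H} k = ∑_{σ ∈ G/H} σ k σ⁻¹` of an `H`-equivariant additive map. -/
noncomputable def cosetNorm [Finite G] (k : P.V →+ C.V) : P.V →+ C.V :=
  letI := Fintype.ofFinite (G ⧸ H)
  ∑ q : G ⧸ H, conjHom k q.out

lemma cosetNorm_apply [Finite G] (k : P.V →+ C.V) (y : P.V) :
    cosetNorm H k y =
      letI := Fintype.ofFinite (G ⧸ H)
      ∑ q : G ⧸ H, conjHom k q.out y := by
  simp [cosetNorm]

/-- The coset norm of an `H`-equivariant map is `G`-equivariant. -/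
theorem cosetNorm_equivariant [Finite G] (k : P.V →+ C.V)
    (hk : ∀ h ∈ H, ∀ y, k (P.ρ h y) = C.ρ h (k y)) (τ : G) (y : P.V) :
    cosetNorm H k (P.ρ τ y) = C.ρ τ (cosetNorm H k y) := by
  letI := Fintype.ofFinite (G ⧸ H)
  rw [cosetNorm_apply, cosetNorm_apply, map_sum]
  symm
  refine Fintype.sum_equiv (MulAction.toPerm τ) _ _ (fun q => ?_)
  induction q using QuotientGroup.induction_on with
  | H σ =>
    rw [← conjHom_mul_apply]
    have : (MulAction.toPerm τ) (σ : G ⧸ H) = ((τ * σ : G) : G ⧸ H) := rfl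
    rw [this, conjHom_out H k hk]
    obtain ⟨h, hh⟩ := QuotientGroup.mk_out_eq_mul H σ
    rw [hh, ← mul_assoc, conjHom_mul_of_mem H k hk (τ * σ) h h.2]

/-- The bijection `(G ⧸ H) × H ≃ G`, `(q, t) ↦ q.out * t`. -/
noncomputable def cosetEquiv : (G ⧸ H) × H ≃ G where
  toFun x := x.1.out * x.2
  invFun σ := ((σ : G ⧸ H), ⟨(σ : G ⧸ H).out⁻¹ * σ,
    QuotientGroup.eq.1 (QuotientGroup.out_eq' (σ : G ⧸ H))⟩)
  left_inv := by
    rintro ⟨q, t⟩
    have h1 : ((q.out * (t : G) : G) : G ⧸ H) = q := by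
      rw [QuotientGroup.mk_mul_of_mem _ t.2, QuotientGroup.out_eq']
    ext
    · exact h1
    · simp only [h1, inv_mul_cancel_left]
  right_inv := by
    intro σ
    simp

/-- The coset norm of an extension of `N_H ψ` extends `N_G ψ`. -/
theorem cosetNorm_restrict [Fintype G] [Fintype H] {R : Rep.{0} ℤ G} (ι : R ⟶ P)
    (ψ : R.V →+ C.V) (k : P.V →+ C.V) (hk : ∀ r, k (ι.hom r) = normH H ψ r) (r : R.V) :
    cosetNorm H k (ι.hom r) = T.normAdd ψ r := by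
  letI := Fintype.ofFinite (G ⧸ H)
  rw [cosetNorm_apply, T.normAdd]
  rw [← Fintype.sum_equiv (cosetEquiv H) (fun x => C.ρ (x.1.out * (x.2 : G))
    (ψ (R.ρ (x.1.out * (x.2 : G))⁻¹ r))) (fun σ => C.ρ σ (ψ (R.ρ σ⁻¹ r))) (fun x => rfl),
    Fintype.sum_prod_type]
  refine Finset.sum_congr rfl (fun q _ => ?_)
  rw [conjHom_apply, ← Rep.hom_comm_apply, hk, normH_apply, map_sum]
  refine Finset.sum_congr rfl (fun t _ => ?_)
  rw [mul_inv_rev, ρ_mul_apply R, ρ_mul_apply C]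

end Coset

/-- **ALG4, abstract form.** -/
theorem normKill [Fintype G] (H : Subgroup G) [Fintype H] (p : ℕ) [Fact p.Prime]
    {R P C : Rep.{0} ℤ G} (ι : R ⟶ P) (hι : Injective ι.hom)
    (hp : ∀ x : P.V, ∃ r : R.V, ι.hom r = p • x)
    (hH : ∀ h ∈ H, ∀ x : P.V, ∃ r : R.V, ι.hom r = P.ρ h x - x) (hC : NormInP p H C)
    (ψ : R.V →+ C.V) :
    ∃ k : P ⟶ C, ∀ r : R.V, k.hom (ι.hom r) = T.normAdd ψ r := by
  obtain ⟨k, hk1, hk2⟩ := exists_equivariant_extension H p ι hι hp hH hC ψ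
  refine ⟨mkHom (cosetNorm H k) (fun g y => cosetNorm_equivariant H k hk2 g y), fun r => ?_⟩
  rw [mkHom_hom_apply]
  exact cosetNorm_restrict H ι ψ k hk1 r

section Std

/-- Exactness of a short exact sequence of representations, on elements (generic in `k`). -/
lemma exact_elem {k Γ : Type} [CommRing k] [Group Γ] {X : ShortComplex (Rep.{0} k Γ)}
    (hX : X.ShortExact) (y : X.X₂.V) (hy : X.g.hom y = 0) : ∃ r : X.X₁.V, X.f.hom r = y := by
  have h := (hX.exact.map (forget₂ (Rep.{0} k Γ) (ModuleCat.{0} k)))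
  rw [ShortComplex.moduleCat_exact_iff] at h
  exact h y hy

/-- Exactness of the standard presentation at `P`, on elements. -/
lemma std_exact (N : Rep.{0} ℤ G) (y : (stdP N).V) (hy : (stdε N).hom y = 0) :
    ∃ r : (stdR N).V, (stdι N).hom r = y :=
  exact_elem (stdSC_shortExact N) y hy

/-- **ALG4** (`ALG4Spec`). -/
theorem alg4 : ALG4Spec := by
  intro p hp G _ _ H _ _ N C _ hpN hHN hC ψ
  haveI : Fact p.Prime := ⟨hp⟩
  have hinj : Injective (stdι N).hom := (Rep.mono_iff_injective (stdι N)).1 (stdι_mono N)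
  refine normKill H p (stdι N) hinj ?_ ?_ hC ψ
  · intro x
    apply std_exact
    rw [map_nsmul, hpN]
  · intro h hh x
    apply std_exact
    rw [map_sub, Rep.hom_comm_apply, hHN h hh, sub_self]

end Std

end Fermat.Agent.S55.E1.H954
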